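/-
GATE-F / GF-SS-ORD (helper69): **[SS] (`not_le`: `Y₀ ⊄ M⁰`) is FREE in the ORDINARY shape.**

`Y₀ = C.Y0 ⊆ Kum_p(F_N)` a `G_ℚ`-equivariant copy of `W[p]` (`GF/Setup/Plane.Copy`), `A ∣ p ∥ N`.
If `W[p]` has a proper `I_A`-stable subgroup `L` with `(σ - 1) W[p] ⊆ L` for all `σ ∈ I_A`
(the ORDINARY shape: e.g. the frozen `IsOrdinaryAt` of `ρ̄ = W[p]`, which for the Frey curve with
`p ∣ abc` is `GB/ResOrd/Frey.frey_isOrdinaryAt`), then `Y₀ ⊄ M⁰ = M0Kum N A h p`.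

Proof: (NU) = `HasCE I_A (σ • ·) (M0mod N A h p)` is ON MAIN, binder-free
(`GS/Top/FramePlug.hasCE_of_frameNode` + `GS/Top/FrameNodeAll.frameNode_all`, the geometric heart
of S33): `M⁰_p` has no `I_A`-trivial SUBQUOTIENT.  Apply it to the `I_A`-stable subgroup
`N := kumJ (C.e L)`: if `Y₀ ⊆ M⁰` then every `w = kumJ (C.e v)` lies in `M⁰_p` and is `I_A`-fixed
modulo `N`, hence `w ∈ N`, i.e. `v ∈ L`; so `L = W[p]`.

No cocycle, no toric part, no Weil pairing: the toric structure of `M⁰ ∩ Knew` is never used.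
-/
import Fermat.Agent.GF.Setup.Plane
import Fermat.Agent.GF.Shape.Plug
import Fermat.Agent.GS.Top.FramePlug
import Fermat.Agent.GS.Top.FrameNodeAll

set_option autoImplicit false
set_option linter.unusedSectionVars false

noncomputable section

namespace Fermat.Agent.GF.SS.OfOrdinary

open AlgebraicCurve ModularCurve
open Fermat.Agent.GJ Fermat.Agent.GJ.KumGroup Fermat.Agent.GJ.Kum.KumType
open Fermat.Agent.GK.AL Fermat.Agent.GS.F Fermat.Agent.GS.Old
open Fermat.Agent.GB.A.A6.ECDet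
open Fermat.Agent.GF.Setup.Plane Fermat.Agent.GF.Shape.Plug

local notation "Qb" => AlgebraicClosure ℚ
local notation "GQ" => (AlgebraicClosure ℚ ≃ₐ[ℚ] AlgebraicClosure ℚ)

variable {W : WeierstrassCurve ℤ} {p : ℕ} [Fact p.Prime] {N : ℕ} [NeZero N]

/-- **[SS] from (NU) and an E-side line**, abstract form: `hCE` is (NU) for `M⁰_p`, `L` any
proper `I`-stable subgroup of `W[p]` with `(σ - 1) W[p] ⊆ L` for `σ ∈ I`. -/
theorem not_le_of_hasCE (C : Copy W p N) (A : ValuationSubring Qb) (h : ExactDvd p N)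
    (I : Set GQ)
    (hCE : HasCE I (fun (σ : GQ) (x : JZero N) => σ • x) (M0mod N A h p))
    (L : AddSubgroup (Tp W p))
    (hLne : ∃ v : Tp W p, v ∉ L)
    (hstab : ∀ σ ∈ I, ∀ v ∈ L, rho W p σ v ∈ L)
    (hquot : ∀ σ ∈ I, ∀ v : Tp W p, rho W p σ v - v ∈ L) :
    ¬ ((C.Y0 : Set (Additive (Kum Kb (FK N) p))) ⊆ M0Kum N A h p) := by
  intro hsub
  obtain ⟨v, hv⟩ := hLne
  -- the `I`-stable subgroup `kumJ (C.e L)` of `J₀(N)`
  let f : Tp W p →+ JZero N := (kumJ N p).comp C.e.toAddMonoidHom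
  have hf : ∀ x, f x = kumJ N p (C.e x) := fun _ => rfl
  have hf_inj : Function.Injective f := fun x y hxy =>
    C.inj (kumJ_injective N p (by rwa [hf, hf] at hxy))
  have hf_gal : ∀ (σ : GQ) (x : Tp W p), σ • f x = f (rho W p σ x) := by
    intro σ x
    rw [hf, hf, C.equivariant, kumJ_gal]
  have hmem : f v ∈ L.map f := by
    refine hCE (L.map f) ?_ (f v) ?_ ?_
    · rintro σ hσ _ ⟨x, hx, rfl⟩
      exact ⟨rho W p σ x, hstab σ hσ x hx, (hf_gal σ x).symm⟩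
    · have h1 : C.e v ∈ M0Kum N A h p := hsub (C.e_mem v)
      exact mem_M0Kum.1 h1
    · intro σ hσ
      refine ⟨rho W p σ v - v, hquot σ hσ v, ?_⟩
      rw [map_sub]
      exact congrArg (· - f v) (hf_gal σ v).symm
  obtain ⟨x, hx, hxv⟩ := hmem
  exact hv (hf_inj hxv ▸ hx)

/-- **[SS] in the ordinary shape, binder-free on the J-side**: (NU) from the frame node of S33. -/
theorem not_le_of_line (C : Copy W p N) (h : ExactDvd p N) (hp2 : p ≠ 2)
    (hside : p = 3 → 2 ∣ N) (A : ValuationSubring Qb) (hA : A.LiesOverPrime p)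
    (L : AddSubgroup (Tp W p))
    (hLne : ∃ v : Tp W p, v ∉ L)
    (hstab : ∀ σ ∈ A.inertiaSubgroupIn ℚ, ∀ v ∈ L, rho W p σ v ∈ L)
    (hquot : ∀ σ ∈ A.inertiaSubgroupIn ℚ, ∀ v : Tp W p, rho W p σ v - v ∈ L) :
    ¬ ((C.Y0 : Set (Additive (Kum Kb (FK N) p))) ⊆ M0Kum N A h p) :=
  not_le_of_hasCE C A h (↑(A.inertiaSubgroupIn ℚ) : Set GQ)
    (Fermat.Agent.GS.Top.FramePlug.hasCE_of_frameNode hp2 h
      (Fermat.Agent.GS.Top.FrameNodeAll.frameNode_all p N h hp2 hside) A hA)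
    L hLne hstab hquot

/-- **[SS] from the frozen `IsOrdinaryAt` of `ρ̄ = W[p]`** (the output of
`GB/ResOrd/Frey.frey_isOrdinaryAt` for the Frey curve with `p ∣ abc`): the field
`GF/Top/ProviderInst.FieldsAt.not_le`. -/
theorem not_le_of_isOrdinaryAt (C : Copy W p N) (h : ExactDvd p N) (hp2 : p ≠ 2)
    (hside : p = 3 → 2 ∣ N) (A : ValuationSubring Qb) (hA : A.LiesOverPrime p)
    (hcard₁ : Nat.card (Tp W p) = p ^ 2)
    (hker : GaloisFactorsThroughFiniteLevel (rho W p))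
    (hord : (GaloisRepAdic.ofResidualGaloisRep
      ((W.map (Int.castRingHom ℚ)).residualGaloisRepOf p hcard₁ hker)).IsOrdinaryAt p) :
    ¬ ((C.Y0 : Set (Additive (Kum Kb (FK N) p))) ⊆ M0Kum N A h p) := by
  have h' : ∃ L : Submodule (ZMod p) (Tp W p),
      (∃ b : Module.Basis (Fin 2) (ZMod p) (Tp W p), L = Submodule.span (ZMod p) {b 0}) ∧
      (∀ σ ∈ A.decompositionSubgroup ℚ, ∀ v ∈ L, rho W p σ v ∈ L) ∧
      (∀ σ ∈ A.inertiaSubgroupIn ℚ, ∀ v : Tp W p, rho W p σ v - v ∈ L) := hord A hA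
  obtain ⟨L, ⟨b, hb⟩, hD, hI⟩ := h'
  refine not_le_of_line C h hp2 hside A hA L.toAddSubgroup ⟨b 1, ?_⟩
    (fun σ hσ v hv => hD σ
      (Fermat.Agent.S05.mem_decompositionSubgroup_of_mem_inertiaSubgroupIn hσ) v hv)
    (fun σ hσ v => hI σ hσ v)
  -- `b 1 ∉ span {b 0}`
  intro hmem
  have hmem' : b 1 ∈ Submodule.span (ZMod p) {b 0} := hb ▸ hmem
  obtain ⟨c, hc⟩ := Submodule.mem_span_singleton.1 hmem'
  have h1 := congrArg (fun x => b.repr x 1) hc
  simp only [map_smul, Module.Basis.repr_self, Finsupp.smul_apply, Finsupp.single_apply,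
    smul_eq_mul] at h1
  norm_num at h1

end Fermat.Agent.GF.SS.OfOrdinary
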