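/-
GATE-F / GF-SS-K0 (helper40): the ABSTRACT core of [SS] (`Y₀ ⊄ M⁰`) of GRAPH v1 (board 5791, paper
answer 5894).  Mathlib only.

* `ne_top_of_equivariant_injective` : in the vocabulary of `GF/Shape/Core` (a plane `Y` with
  operators `T i`, `i ∈ I`, and the subspace `L = Y₀ ∩ M⁰`): if `L = ⊤` would produce an INJECTIVE
  map `c : Y → H` (the graph cocycle, injective by (K0)) on which every `T i` acts through the
  scalar `det (T i)` (inertia acts on `H = μ_p^Σ / diag` by `ω = det`), and some `det (T i) ≠ 0, 1`,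
  then `L ≠ ⊤` — this is the binder `hSS` of `Core.finrank_eq_one`;
* `exists_eq_smul_add_pow_smul` : (K0′), leading-term induction: if every element of an `O`-module
  `Λ` is `≡ c • e` modulo `π • Λ`, then it is `≡ c • e` modulo `π ^ n • Λ` for every `n`;
* `mem_span_of_forall_pow` : Krull: in a finitely generated module over a noetherian local ring,
  an element which is `≡ c_n • e` modulo `π ^ n` for every `n` (`π` in the maximal ideal) lies in
  `O • e`;
* `mem_span_of_leading` : the two combined along an `O`-linear map `Λ → M` (`Λ` = compatible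
  integral systems with poles `≤ E₀`, `M` = the lattice of honest functions with poles `≤ p E₀`).
-/
import Mathlib

set_option autoImplicit false

open Module

namespace Fermat.Agent.GF.SS.Core

/-! ### [SS] from an injective equivariant cocycle -/

section Plane

variable {k : Type*} [Field k] {Y : Type*} [AddCommGroup Y] [Module k Y]

/-- an injective map on which `T` acts through the scalar `χ` forces `T = χ • 1`. -/
theorem eq_smul_of_equivariant_injective {H : Type*} [AddCommGroup H] [Module k H]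
    (T : Module.End k Y) (χ : k) (c : Y →ₗ[k] H) (hc : Function.Injective c)
    (hT : ∀ y, c (T y) = χ • c y) : T = χ • (1 : Module.End k Y) := by
  refine LinearMap.ext fun y => hc ?_
  rw [hT, LinearMap.smul_apply, Module.End.one_apply, map_smul]

/-- **[SS], abstract form**: `L ≠ ⊤`, provided that `L = ⊤` yields an injective `c : Y → H` on which
every `T i` (`i ∈ I`) acts through the scalar `det (T i)`, and some `det (T i)` is neither `0`
nor `1`. -/
theorem ne_top_of_equivariant_injective {ι : Type*} (I : Set ι) (T : ι → Module.End k Y)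
    (L : Submodule k Y) (hfin : finrank k Y = 2) {H : Type*} [AddCommGroup H] [Module k H]
    (hc : L = ⊤ → ∃ c : Y →ₗ[k] H, Function.Injective c ∧
      ∀ i ∈ I, ∀ y, c (T i y) = LinearMap.det (T i) • c y)
    (hdet : ∃ i ∈ I, LinearMap.det (T i) ≠ 1 ∧ LinearMap.det (T i) ≠ 0) : L ≠ ⊤ := by
  intro hL
  obtain ⟨c, hinj, hequiv⟩ := hc hL
  obtain ⟨i, hi, h1, h0⟩ := hdet
  have hT := eq_smul_of_equivariant_injective (T i) (LinearMap.det (T i)) c hinj (hequiv i hi)
  have hd : LinearMap.det (T i) = LinearMap.det (T i) ^ 2 := by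
    conv_lhs => rw [hT]
    rw [LinearMap.det_smul, hfin, show (1 : Module.End k Y) = LinearMap.id from rfl,
      LinearMap.det_id, mul_one]
  have h2 : LinearMap.det (T i) * (LinearMap.det (T i) - 1) = 0 := by
    rw [mul_sub, mul_one, ← sq, ← hd, sub_self]
  rcases mul_eq_zero.mp h2 with h | h
  · exact h0 h
  · exact h1 (sub_eq_zero.mp h)

end Plane

/-! ### (K0′): leading-term induction -/

section Leading

variable {O : Type*} [CommRing O] {Λ : Type*} [AddCommGroup Λ] [Module O Λ]

/-- **leading-term induction**: if every `x : Λ` is `c • e + π • x'`, then every `x` is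
`c • e + π ^ n • x'` for every `n`. -/
theorem exists_eq_smul_add_pow_smul (π : O) (e : Λ)
    (hred : ∀ x : Λ, ∃ (c : O) (x' : Λ), x = c • e + π • x') (n : ℕ) (x : Λ) :
    ∃ (c : O) (x' : Λ), x = c • e + π ^ n • x' := by
  induction n generalizing x with
  | zero => exact ⟨0, x, by rw [zero_smul, zero_add, pow_zero, one_smul]⟩
  | succ n ih =>
    obtain ⟨c, x', hx⟩ := ih x
    obtain ⟨c', x'', hx'⟩ := hred x'
    refine ⟨c + π ^ n * c', x'', ?_⟩
    rw [hx, hx', smul_add, add_smul, mul_smul, smul_smul (π ^ n) π, ← pow_succ, add_assoc]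

end Leading

/-! ### Krull: closure of `O • e` in a finitely generated module -/

section Krull

variable {O : Type*} [CommRing O] [IsLocalRing O] [IsNoetherianRing O]
  {M : Type*} [AddCommGroup M] [Module O M] [Module.Finite O M]

/-- **Krull**: `u ≡ c_n • e` modulo `π ^ n • M` for every `n`, `π` in the maximal ideal ⟹
`u ∈ O • e`. -/
theorem mem_span_of_forall_pow (π : O) (hπ : π ∈ IsLocalRing.maximalIdeal O) (e u : M)
    (h : ∀ n : ℕ, ∃ (c : O) (m : M), u = c • e + π ^ n • m) :
    u ∈ Submodule.span O {e} := by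
  set N : Submodule O M := Submodule.span O {e} with hN
  have hne : Ideal.span {π} ≠ ⊤ := by
    intro htop
    have h1 : (1 : O) ∈ Ideal.span {π} := htop ▸ Submodule.mem_top
    have h2 : Ideal.span {π} ≤ IsLocalRing.maximalIdeal O :=
      (Ideal.span_singleton_le_iff_mem _).2 hπ
    exact (Ideal.ne_top_iff_one _).1 (IsLocalRing.maximalIdeal.isMaximal O).ne_top (h2 h1)
  have hkrull := Ideal.iInf_pow_smul_eq_bot_of_isLocalRing (R := O) (M := M ⧸ N)
    (Ideal.span {π}) hne
  have hu : N.mkQ u ∈ (⨅ i : ℕ, Ideal.span {π} ^ i • (⊤ : Submodule O (M ⧸ N))) := by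
    rw [Submodule.mem_iInf]
    intro n
    obtain ⟨c, m, hcm⟩ := h n
    have h1 : N.mkQ u = π ^ n • N.mkQ m := by
      rw [hcm, map_add, map_smul, map_smul]
      have : N.mkQ e = 0 := (Submodule.Quotient.mk_eq_zero N).2 (Submodule.mem_span_singleton_self e)
      rw [this, smul_zero, zero_add]
    rw [h1]
    refine Submodule.smul_mem_smul ?_ Submodule.mem_top
    rw [Ideal.span_singleton_pow]
    exact Ideal.mem_span_singleton_self _
  rw [hkrull, Submodule.mem_bot] at hu
  exact (Submodule.Quotient.mk_eq_zero N).1 hu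

end Krull

/-! ### the two combined -/

section Combined

variable {O : Type*} [CommRing O] [IsLocalRing O] [IsNoetherianRing O]
  {Λ : Type*} [AddCommGroup Λ] [Module O Λ]
  {M : Type*} [AddCommGroup M] [Module O M] [Module.Finite O M]

/-- **(K0′), module form**: `Λ` the compatible integral systems with poles `≤ E₀`, every element of
which reduces to a constant (`hred`); `f : Λ → M` an `O`-linear map to a finitely generated module
with `f e = e'`.  Then `f x ∈ O • e'` for every `x`. -/
theorem mem_span_of_leading (π : O) (hπ : π ∈ IsLocalRing.maximalIdeal O) (e : Λ)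
    (hred : ∀ x : Λ, ∃ (c : O) (x' : Λ), x = c • e + π • x') (f : Λ →ₗ[O] M) (x : Λ) :
    f x ∈ Submodule.span O {f e} := by
  refine mem_span_of_forall_pow π hπ (f e) (f x) fun n => ?_
  obtain ⟨c, x', hx⟩ := exists_eq_smul_add_pow_smul π e hred n x
  exact ⟨c, f x', by rw [hx, map_add, map_smul, map_smul]⟩

end Combined

/-! ### (K0), ring form: a `p`-th root which is a compatible system is a constant -/

section RingForm

variable {O : Type*} [CommRing O] [IsLocalRing O] [IsNoetherianRing O]
  {R : Type*} [CommRing R] [Algebra O R]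

/-- `a ^ p - b ^ p = (a - b) * s` -/
theorem exists_pow_sub_pow_eq (a b : R) (p : ℕ) : ∃ s : R, a ^ p - b ^ p = (a - b) * s :=
  ⟨_, ((Commute.all a b).mul_geom_sum₂ p).symm⟩

/-- **(K0), ring form.**  `R` = the ring of compatible integral systems (any poles), `Λ ≤ R` those
with poles `≤ E₀` (`hred` : their reductions are constants, i.e. `l_C(Ē₀) = 1`), `Mr ≤ R` the
finitely generated lattice of HONEST functions with poles `≤ p E₀`, `π`-saturated in `R` and
containing the constants.  If `Γ ∈ Λ` and `Γ ^ p ∈ Mr` (`Γ ^ p = u`, the Kummer function), then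
`Γ ^ p` is a CONSTANT. -/
theorem pow_mem_span_one_of_leading (π : O) (hπ : π ∈ IsLocalRing.maximalIdeal O)
    (Λ : Submodule O R)
    (hred : ∀ x ∈ Λ, ∃ (c : O) (x' : R), x' ∈ Λ ∧ x = c • (1 : R) + π • x')
    (Mr : Submodule O R) [Module.Finite O Mr] (h1 : (1 : R) ∈ Mr)
    (hsat : ∀ (n : ℕ) (y : R), π ^ n • y ∈ Mr → y ∈ Mr)
    (Γ : R) (hΓ : Γ ∈ Λ) (p : ℕ) (hu : Γ ^ p ∈ Mr) :
    ∃ c : O, Γ ^ p = c • (1 : R) := by
  -- leading-term induction inside `Λ`
  have hstep : ∀ n : ℕ, ∀ x ∈ Λ, ∃ (c : O) (x' : R), x' ∈ Λ ∧ x = c • (1 : R) + π ^ n • x' := by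
    intro n
    induction n with
    | zero => exact fun x hx => ⟨0, x, hx, by rw [zero_smul, zero_add, pow_zero, one_smul]⟩
    | succ n ih =>
      intro x hx
      obtain ⟨c, x', hx'Λ, hx'⟩ := ih x hx
      obtain ⟨c', x'', hx''Λ, hx''⟩ := hred x' hx'Λ
      refine ⟨c + π ^ n * c', x'', hx''Λ, ?_⟩
      rw [hx', hx'', smul_add, add_smul, mul_smul, smul_smul (π ^ n) π, ← pow_succ, add_assoc]
  -- Krull inside the finitely generated module `Mr`
  have key : (⟨Γ ^ p, hu⟩ : Mr) ∈ Submodule.span O {(⟨1, h1⟩ : Mr)} := by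
    refine mem_span_of_forall_pow π hπ _ _ fun n => ?_
    obtain ⟨c, x', -, hx'⟩ := hstep n Γ hΓ
    obtain ⟨s, hs⟩ := exists_pow_sub_pow_eq Γ (c • (1 : R)) p
    have hsub : Γ - c • (1 : R) = π ^ n • x' := by rw [hx']; abel
    have hy : π ^ n • (x' * s) ∈ Mr := by
      have h2 : π ^ n • (x' * s) = Γ ^ p - (c • (1 : R)) ^ p := by
        rw [hs, hsub, smul_mul_assoc]
      rw [h2, smul_pow, one_pow]
      exact Mr.sub_mem hu (Mr.smul_mem _ h1)
    refine ⟨c ^ p, ⟨x' * s, hsat n _ hy⟩, Subtype.ext ?_⟩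
    show Γ ^ p = c ^ p • (1 : R) + π ^ n • (x' * s)
    have h2 : π ^ n • (x' * s) = Γ ^ p - (c • (1 : R)) ^ p := by
      rw [hs, hsub, smul_mul_assoc]
    rw [h2, smul_pow, one_pow]
    abel
  obtain ⟨c, hc⟩ := Submodule.mem_span_singleton.1 key
  exact ⟨c, (congrArg Subtype.val hc).symm⟩

end RingForm

end Fermat.Agent.GF.SS.Core
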