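/-
GATE-F / GF-SS-ORD, plug (helper69): **the field `not_le` of `Provider44O.FieldsAtO`, VERBATIM in
the binder frame of `Provider44O.FieldsO`** (helper61, board 6297), from `hord : OrdAt W p` alone.

`not_le_of_ordAt` : for EVERY copy `C` (in particular `C` and `compW C (exactDvd hpM')`), every
`A ∣ p`: `¬ C.Y0 ⊆ M0Kum (M' * p) A (exactDvd hpM') p`.

`= OfOrdinary.not_le_of_isOrdinaryAt` with `hcard₁ := S0.hcard_of W hΔ p`,
`hker := ECDet.finiteLevel_rho hcard₁`, `hord := hO hcard₁ hker`.  So [SS] is CLOSED for the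
provider: the integrator writes `not_le := not_le_of_ordAt W hΔ p hp5 hord M' hpM' C A hA`.
-/
import Fermat.Agent.GF.SS.OfOrdinary
import Fermat.Agent.GF.Top.Provider44O

set_option autoImplicit false
set_option linter.unusedSectionVars false

noncomputable section

namespace Fermat.Agent.GF.SS.FieldsOPlug

open AlgebraicCurve ModularCurve
open Fermat.Agent.GJ Fermat.Agent.GJ.KumGroup Fermat.Agent.GJ.Kum.KumType
open Fermat.Agent.GK.AL
open Fermat.Agent.GB.A.A6.ECDet
open Fermat.Agent.GF.Setup.Plane Fermat.Agent.GF.Setup.S0 Fermat.Agent.GF.Shape.Plug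
open Fermat.Agent.GF.Top.S44TopOrd

local notation "Qb" => AlgebraicClosure ℚ

/-- **[SS] in the frame of `Provider44O.FieldsO`**: the field `not_le` for an ARBITRARY copy `C`
at level `M' * p`, any `A ∣ p`, from the E-side ordinary line `hord`. -/
theorem not_le_of_ordAt (W : WeierstrassCurve ℤ) (hΔ : W.Δ ≠ 0) (p : ℕ) [Fact p.Prime]
    (hp5 : 5 ≤ p) (hord : OrdAt W p) (M' : ℕ) [NeZero M'] (hpM' : ¬ p ∣ M')
    (C : Copy W p (M' * p)) (A : ValuationSubring Qb) (hA : A.LiesOverPrime p) :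
    ¬ ((C.Y0 : Set (Additive (Kum Kb (FK (M' * p)) p))) ⊆
      M0Kum (M' * p) A (exactDvd hpM') p) :=
  Fermat.Agent.GF.SS.OfOrdinary.not_le_of_isOrdinaryAt C (exactDvd hpM') (by omega)
    (fun h3 => by omega) A hA (hcard_of W hΔ p) (finiteLevel_rho (hcard_of W hΔ p))
    (hord (hcard_of W hΔ p) (finiteLevel_rho (hcard_of W hΔ p)))

end Fermat.Agent.GF.SS.FieldsOPlug
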