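/-
GATE-F / GF-SS-ORD (helper69), Frey instance: **the field `FieldsAt.not_le` ([SS]) for the Frey
curve with `p ∣ abc`, binder-free.**

`GF/SS/OfOrdinary.not_le_of_isOrdinaryAt` ((NU) of S33 + the E-side line) with the E-side line from
`GB/ResOrd/Frey.frey_isOrdinaryAt_of_det`; the inertia element of determinant `≠ 1` comes from
`GB/A/A6/ECDet.det_rho` (`det ρ̄ = χ_p`, no Weil pairing) and `GF/Shape/Cyc.exists_inertia_cyc_ne_one`.
-/
import Fermat.Agent.GF.SS.OfOrdinary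
import Fermat.Agent.GF.Shape.Cyc
import Fermat.Agent.GB.ResOrd.Frey
import Fermat.Agent.GB.Top.S43Frey

set_option autoImplicit false
set_option linter.unusedSectionVars false

noncomputable section

namespace Fermat.Agent.GF.SS.FreyOrd

open AlgebraicCurve ModularCurve
open Fermat.Agent.GJ Fermat.Agent.GJ.KumGroup Fermat.Agent.GJ.Kum.KumType
open Fermat.Agent.GK.AL Fermat.Agent.GJ.CycChar
open Fermat.Agent.GB.A.A6.ECDet Fermat.Agent.GB.Top.S43Frey
open Fermat.Agent.GF.Setup.Plane Fermat.Agent.GF.Shape.Plug Fermat.Agent.GF.Shape.Cyc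

local notation "Qb" => AlgebraicClosure ℚ
local notation "GQ" => (AlgebraicClosure ℚ ≃ₐ[ℚ] AlgebraicClosure ℚ)

/-- **Residual ordinarity at `p` of `P.freyCurveInt[p]` for `p ∣ abc`**, with the determinant
binder discharged by `ECDet.det_rho` (needs irreducibility). -/
theorem frey_isOrdinaryAt (P : FreyPackage) [Fact P.p.Prime]
    (hpabc : (P.p : ℤ) ∣ P.a * P.b * P.c)
    (hirr : P.freyCurveInt.ModRepIsIrreducible P.p)
    (hcard₁ : Nat.card (Tp P.freyCurveInt P.p) = P.p ^ 2)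
    (hker : GaloisFactorsThroughFiniteLevel (rho P.freyCurveInt P.p)) :
    (GaloisRepAdic.ofResidualGaloisRep
      ((P.freyCurveInt.map (Int.castRingHom ℚ)).residualGaloisRepOf P.p hcard₁ hker)).IsOrdinaryAt
      P.p := by
  have hp2 : P.p ≠ 2 := by have := P.hp5; omega
  have hΔ := freyCurveInt_Δ_ne_zero P
  refine Fermat.Agent.GB.ResOrd.Frey.frey_isOrdinaryAt_of_det P hpabc
    (P.freyCurveInt.map (Int.castRingHom ℚ)) (freyCurve_eq_map P).symm hcard₁ hker ?_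
  intro A hA
  obtain ⟨σ, hσ, hne⟩ := exists_inertia_cyc_ne_one hp2 A
    ((Fermat.Agent.S05.natCast_mem_nonunits_iff P.pp hA P.p).2 dvd_rfl)
  refine ⟨σ, hσ, ?_⟩
  have h1 : LinearMap.det (rho P.freyCurveInt P.p σ) = ((cyc P.p σ : (ZMod P.p)ˣ) : ZMod P.p) :=
    det_rho hΔ hcard₁ hirr σ
  rw [h1]
  exact hne

/-- **[SS] for the Frey curve with `p ∣ abc`**: `Y₀ ⊄ M⁰` for every `G_ℚ`-equivariant copy `Y₀`
of `P.freyCurveInt[p]` in `Kum_p(F_N)`, `p ∥ N`, and every `A ∣ p`. -/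
theorem frey_not_le (P : FreyPackage) [Fact P.p.Prime]
    (hpabc : (P.p : ℤ) ∣ P.a * P.b * P.c)
    (hirr : P.freyCurveInt.ModRepIsIrreducible P.p)
    {N : ℕ} [NeZero N] (C : Copy P.freyCurveInt P.p N) (h : ExactDvd P.p N)
    (A : ValuationSubring Qb) (hA : A.LiesOverPrime P.p) :
    ¬ ((C.Y0 : Set (Additive (Kum Kb (FK N) P.p))) ⊆ M0Kum N A h P.p) := by
  have hp2 : P.p ≠ 2 := by have := P.hp5; omega
  have hp1 : 1 ≤ P.p := P.pp.one_lt.le
  have hΔ := freyCurveInt_Δ_ne_zero P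
  have hcard₁ := hcard_of_Δ_ne_zero P.freyCurveInt hΔ P.p hp1
  have hker := hker_of_Δ_ne_zero P.freyCurveInt hΔ P.p hp1
  exact Fermat.Agent.GF.SS.OfOrdinary.not_le_of_isOrdinaryAt C h hp2
    (fun h3 => by have := P.hp5; omega) A hA hcard₁ hker
    (frey_isOrdinaryAt P hpabc hirr hcard₁ hker)

end Fermat.Agent.GF.SS.FreyOrd
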